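import Mathlib
import Fermat.Agent.LT.T7.B981.BaseSpec
import Fermat.Agent.LT.T7.H981.FinIndex

/-!
# Row LT, tower T7, node T7.L2.1.H2a `BaseC`, leaf T7.L2.1.H2a.1 `LvlC981` (helper890)

OFF-MAIN.  `lvlC890 (K K') : B981.LvlC981 K K'`, VERBATIM against `LT/T7/B981/BaseSpec.lean`
(sha256 3ab0d96c, helper981@67d2c25cd), UNCONDITIONAL.  Imports: Mathlib, the spec closure and the
kit `T7/H981/FinIndex.lean` of helper981 (byte copy).  ADDITIVE (new names only, suffix `890`).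

* `isLevelOf_mult890` : for a nonzero ideal `I` of `𝓞 F` the closure of `I` in `F_v` is the ball
  of radius `exp (- mult_v I)` (`mult_v I` = the multiplicity of `v` in `I`), at EVERY finite
  place `v`; i.e. `IsLevelOf893 I (mult · I)`.
* `lvlC890` : the level `𝔫 = 𝔫₀ ^ max M 1` (`𝔫₀` of `IsL2Base.base_level`), `T₀` = the prime
  divisors of `𝔫`, the exponents = the multiplicities in `𝔫`, `𝔫 𝒪_{K'}`, `𝔑₀`.
-/

set_option autoImplicit false

open IsDedekindDomain NumberField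

noncomputable section

namespace Fermat.Agent.LT.T7.B981.H890

open Fermat.Agent.LT.H556 Fermat.Agent.LT.H556.A0 Fermat.Agent.LT.T7
open Fermat.Agent.LT.T7.H305 Fermat.Agent.LT.T7.H893 Fermat.Agent.LT.T7.H981
open Fermat.Agent.LT.T7.B981

section Local

variable {F : Type} [Field F] [NumberField F]

/-- The multiplicity of the place `v` in the ideal `I`. -/
def mult890 (I : Ideal (𝓞 F)) (v : HeightOneSpectrum (𝓞 F)) : ℕ := multiplicity v.asIdeal I

theorem finMult890 {I : Ideal (𝓞 F)} (hI : I ≠ ⊥) (v : HeightOneSpectrum (𝓞 F)) :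
    FiniteMultiplicity v.asIdeal I :=
  FiniteMultiplicity.of_prime_left v.prime hI

theorem pow_mult_dvd890 (I : Ideal (𝓞 F)) (v : HeightOneSpectrum (𝓞 F)) :
    v.asIdeal ^ mult890 I v ∣ I :=
  pow_multiplicity_dvd _ _

theorem not_pow_succ_dvd890 {I : Ideal (𝓞 F)} (hI : I ≠ ⊥) (v : HeightOneSpectrum (𝓞 F)) :
    ¬ v.asIdeal ^ (mult890 I v + 1) ∣ I :=
  (finMult890 hI v).not_pow_dvd_of_multiplicity_lt (Nat.lt_succ_self _)

theorem le_mult890 {I : Ideal (𝓞 F)} (hI : I ≠ ⊥) (v : HeightOneSpectrum (𝓞 F)) {k : ℕ}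
    (h : v.asIdeal ^ k ∣ I) : k ≤ mult890 I v :=
  (finMult890 hI v).le_multiplicity_of_pow_dvd h

/-- Every element of `I` has valuation `≤ exp (- mult_v I)`. -/
theorem intVal_le_of_mem890 (I : Ideal (𝓞 F)) (v : HeightOneSpectrum (𝓞 F)) {b : 𝓞 F}
    (hb : b ∈ I) : v.intValuation b ≤ WithZero.exp (-(mult890 I v : ℤ)) := by
  rw [HeightOneSpectrum.intValuation_le_pow_iff_mem]
  exact Ideal.dvd_iff_le.1 (pow_mult_dvd890 I v) hb

/-- Some element of `I` has valuation exactly `exp (- mult_v I)`. -/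
theorem exists_intVal_eq890 {I : Ideal (𝓞 F)} (hI : I ≠ ⊥) (v : HeightOneSpectrum (𝓞 F)) :
    ∃ a ∈ I, v.intValuation a = WithZero.exp (-(mult890 I v : ℤ)) := by
  have hnle : ¬ I ≤ v.asIdeal ^ (mult890 I v + 1) := fun h =>
    not_pow_succ_dvd890 hI v (Ideal.dvd_iff_le.2 h)
  obtain ⟨a, ha, hav⟩ := Set.not_subset.1 hnle
  refine ⟨a, ha, le_antisymm (intVal_le_of_mem890 I v ha) ?_⟩
  have h1 : ¬ v.intValuation a ≤ WithZero.exp (-((mult890 I v + 1 : ℕ) : ℤ)) := fun h =>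
    hav ((HeightOneSpectrum.intValuation_le_pow_iff_mem v a _).1 h)
  have h2 : WithZero.exp (-((mult890 I v + 1 : ℕ) : ℤ)) < v.intValuation a := lt_of_not_ge h1
  have h0 : v.intValuation a ≠ 0 := fun h => by
    rw [h] at h2
    exact not_lt_of_ge zero_le' h2
  rw [← WithZero.exp_log h0] at h2 ⊢
  rw [WithZero.exp_lt_exp] at h2
  rw [WithZero.exp_le_exp]
  push_cast at h2
  omega

/-- **The closure of a nonzero ideal in `F_v` is the ball of radius `exp (- mult_v I)`.** -/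
theorem isLevelOf_mult890 {I : Ideal (𝓞 F)} (hI : I ≠ ⊥) : IsLevelOf893 I (mult890 I) := by
  intro v x
  obtain ⟨a, ha, hva⟩ := exists_intVal_eq890 hI v
  have hc : Valued.v (toC981 v a) = WithZero.exp (-(mult890 I v : ℤ)) := by
    rw [valued_toC981, hva]
  have hc0 : toC981 v a ≠ 0 := by
    intro h
    rw [h, map_zero] at hc
    exact WithZero.exp_ne_zero hc.symm
  have hv0 : Valued.v (toC981 v a) ≠ 0 := by
    rw [hc]
    exact WithZero.exp_ne_zero
  -- the ball is the preimage of the integers under `y ↦ c⁻¹ y`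
  have key : ∀ y : v.adicCompletion F,
      Valued.v y ≤ WithZero.exp (-(mult890 I v : ℤ))
        ↔ (toC981 v a)⁻¹ * y ∈ v.adicCompletionIntegers F := by
    intro y
    rw [HeightOneSpectrum.mem_adicCompletionIntegers, map_mul, map_inv₀, ← hc,
      inv_mul_le_iff₀ (zero_lt_iff.2 hv0), mul_one]
  constructor
  · intro hx
    have hcl : IsClosed {y : v.adicCompletion F |
        (toC981 v a)⁻¹ * y ∈ v.adicCompletionIntegers F} :=
      (Valued.isClosed_valuationSubring _).preimage (continuous_const.mul continuous_id)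
    have hsub : idealClosure I v ⊆ {y : v.adicCompletion F |
        (toC981 v a)⁻¹ * y ∈ v.adicCompletionIntegers F} := by
      refine closure_minimal ?_ hcl
      rintro _ ⟨b, hb, rfl⟩
      show (toC981 v a)⁻¹ * toC981 v b ∈ v.adicCompletionIntegers F
      rw [← key, valued_toC981]
      exact intVal_le_of_mem890 I v hb
    exact (key x).2 (hsub hx)
  · intro hx
    have h1 := mul_mem_idealClosure981 I v ((key x).1 hx) (toC981_mem_idealClosure I v ha)
    rwa [mul_comm, ← mul_assoc, mul_inv_cancel₀ hc0, one_mul] at h1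

end Local

section Top

variable (K K' : Type) [Field K] [NumberField K] [Field K'] [NumberField K'] [Algebra K K']

theorem upI_ne_bot890 {𝔫 : Ideal (𝓞 K)} (h : 𝔫 ≠ ⊥) : upI (K' := K') 𝔫 ≠ ⊥ := fun h0 =>
  h ((Ideal.map_eq_bot_iff_of_injective (RingOfIntegers.algebraMap.injective K K')).1 h0)

theorem upI_pow890 (𝔫 : Ideal (𝓞 K)) (d : ℕ) :
    upI (K' := K') (𝔫 ^ d) = upI (K' := K') 𝔫 ^ d :=
  Ideal.map_pow _ _ _

/-- **LEAF T7.L2.1.H2a.1 = LEVEL** (`B981.LvlC981`, VERBATIM). -/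
theorem lvlC890 : LvlC981 K K' := by
  intro ℓ Φ B hB M
  obtain ⟨𝔫₀, h0, hN, hu, -⟩ := hB.base_level
  have hd : max M 1 ≠ 0 := by omega
  have hn : 𝔫₀ ^ max M 1 ≠ ⊥ := pow_ne_zero _ h0
  have hup : upI (K' := K') (𝔫₀ ^ max M 1) = B.𝔑₀ ^ max M 1 := by
    rw [upI_pow890, ← hN]
  have hN0 : B.𝔑₀ ≠ ⊥ := by
    rw [hN]
    exact upI_ne_bot890 K K' h0
  refine ⟨𝔫₀ ^ max M 1, (Ideal.finite_factors hn).toFinset,
    mult890 (upI (K' := K') (𝔫₀ ^ max M 1)), mult890 B.𝔑₀, mult890 (𝔫₀ ^ max M 1),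
    ⟨hn, ?_, ?_, dvd_pow hu hd⟩, ⟨?_, isLevelOf_mult890 hn,
      isLevelOf_mult890 (upI_ne_bot890 K K' hn), isLevelOf_mult890 hN0⟩, ?_⟩
  · rw [hup]
    exact Ideal.pow_le_self hd
  · intro w
    rw [hup, hB.mem_S' w, w.prime.dvd_pow_iff_dvd hd]
  · intro v
    rw [Set.Finite.mem_toFinset]
    exact Iff.rfl
  · intro v hv
    rw [Set.Finite.mem_toFinset] at hv
    have hv' : v.asIdeal ∣ 𝔫₀ := (v.prime.dvd_pow_iff_dvd hd).1 hv
    exact le_trans (le_max_left M 1) (le_mult890 hn v (pow_dvd_pow_of_dvd hv' _))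

end Top

end Fermat.Agent.LT.T7.B981.H890
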